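import Fermat.Agent.LT.T3.R.Spec
import Fermat.Agent.LT.T3.M.H719.SplitM

/-!
# Row LT, tower T3, station T3.18R, leaf R.6 `R.SplitRC` (helper129, registry row 2303) -- OFF-MAIN

`splitRC129 K : R.SplitRC K`, VERBATIM the Prop of `LT/T3/R/Spec.lean` (helper14, sha256
`a528b35aabb14cdc`), UNCONDITIONAL.

The closed multi-place proof `M.H719.splitMC719` (helper719, on the single-place proof
`H129.splitC129`) with the real components `reHom K w (hR w) : 𝔸_K → ℝ` in place of the complex
ones: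

* `E₀ = outGrpM K 𝔫 P` is an open (and closed) additive subgroup of `𝔸_K` (lemmas of helper719,
  used as they are: they do not mention the infinite places);
* `p = projR129 : 𝔸_K → (∀ v : P, K_v) × (S_∞ → ℝ)` is continuous, additive and maps `E₀` ONTO
  the target (`surjective_extensionEmbeddingOfIsReal`);
* `E₀ ∩ p⁻¹ (∏_{v ∈ P} 𝒪_v × unit ball)` lies in the compact box `T1.H919.box919 K 1`
  (`‖infHom K w X‖ = ‖reHom K w hw X‖`);
* hence `p_* (ν|_{E₀})` is a Haar measure, and `prodHaarR129` (Mathlib only: a Haar measure of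
  `(∀ i, A i) × (ι → ℝ)` integrates the pure tensors to the product of the integrals, up to a
  constant) applies.
-/

set_option autoImplicit false
set_option linter.style.haveILetI false

open IsDedekindDomain NumberField MeasureTheory
open Fermat.Agent.LT.H556.A0 Fermat.Agent.LT.T3.AS Fermat.Agent.LT.T3.AS.N893
open Fermat.Agent.LT.T3.M Fermat.Agent.LT.T3.M.H719

noncomputable section

namespace Fermat.Agent.LT.T3.R.H129

/-! ## The generic part (Mathlib only) -/

/-- A pure tensor of functions with compact support has compact support (real factors). -/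
theorem hasCompactSupport_tensorR129 {ι₁ ι : Type} [Fintype ι₁] [Fintype ι] {A : ι₁ → Type}
    [∀ i, TopologicalSpace (A i)] [∀ i, T2Space (A i)]
    {φ₀ : ∀ i, A i → ℂ} {φ : ι → ℝ → ℂ} (h₀ : ∀ i, HasCompactSupport (φ₀ i))
    (h : ∀ w, HasCompactSupport (φ w)) :
    HasCompactSupport (fun p : (∀ i, A i) × (ι → ℝ) =>
      (∏ i, φ₀ i (p.1 i)) * ∏ w : ι, φ w (p.2 w)) := by
  have hK : IsCompact ((Set.pi Set.univ fun i => tsupport (φ₀ i)) ×ˢ
      (Set.pi Set.univ fun w => tsupport (φ w))) :=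
    (isCompact_univ_pi fun i => h₀ i).prod (isCompact_univ_pi fun w => h w)
  refine HasCompactSupport.intro hK fun p hp => ?_
  by_contra hne
  apply hp
  have h1 : ∏ i, φ₀ i (p.1 i) ≠ 0 := fun h0 => hne (by rw [h0, zero_mul])
  have h2 : ∏ w : ι, φ w (p.2 w) ≠ 0 := fun h0 => hne (by rw [h0, mul_zero])
  refine ⟨fun i _ => subset_tsupport _ ?_, fun w _ => subset_tsupport _ ?_⟩
  · exact (Finset.prod_ne_zero_iff.mp h1) i (Finset.mem_univ i)
  · exact (Finset.prod_ne_zero_iff.mp h2) w (Finset.mem_univ w)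

/-- **Multi-factor `ProdHaar`, real factors at infinity.** -/
theorem prodHaarR129 {ι₁ : Type} [Fintype ι₁] (A : ι₁ → Type) [∀ i, AddCommGroup (A i)]
    [∀ i, TopologicalSpace (A i)] [∀ i, IsTopologicalAddGroup (A i)]
    [∀ i, LocallyCompactSpace (A i)] [∀ i, T2Space (A i)]
    [∀ i, SecondCountableTopology (A i)] [∀ i, MeasurableSpace (A i)] [∀ i, BorelSpace (A i)]
    (ι : Type) [Fintype ι]
    (μ : Measure ((∀ i, A i) × (ι → ℝ))) (hμ : μ.IsAddHaarMeasure) :
    ∃ c₀ : ℂ, ∀ (φ₀ : ∀ i, A i → ℂ) (φ : ι → ℝ → ℂ),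
      (∀ i, Continuous (φ₀ i)) → (∀ i, HasCompactSupport (φ₀ i)) →
      (∀ w, Continuous (φ w)) → (∀ w, HasCompactSupport (φ w)) →
      Integrable (fun h : (∀ i, A i) × (ι → ℝ) =>
        (∏ i, φ₀ i (h.1 i)) * ∏ w : ι, φ w (h.2 w)) μ ∧
      ∫ h, (∏ i, φ₀ i (h.1 i)) * ∏ w : ι, φ w (h.2 w) ∂μ
        = c₀ * (∏ i, ∫ x, φ₀ i x ∂(Measure.addHaar : Measure (A i)))
          * ∏ w : ι, ∫ z : ℝ, φ w z := by
  set π₀ : Measure (∀ i, A i) := Measure.pi (fun i => (Measure.addHaar : Measure (A i)))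
    with hπ₀
  have hπ₀' : π₀.IsAddHaarMeasure := by rw [hπ₀]; infer_instance
  set m : Measure ((∀ i, A i) × (ι → ℝ)) := π₀.prod (volume : Measure (ι → ℝ)) with hm
  have hm' : m.IsAddHaarMeasure := Measure.prod.instIsAddHaarMeasure _ _
  have hμm : μ = Measure.addHaarScalarFactor μ m • m := Measure.isAddLeftInvariant_eq_smul μ m
  refine ⟨((Measure.addHaarScalarFactor μ m : NNReal) : ℝ), fun φ₀ φ hc₀ hs₀ hc hs => ?_⟩
  have hcont : Continuous (fun p : (∀ i, A i) × (ι → ℝ) =>
      (∏ i, φ₀ i (p.1 i)) * ∏ w : ι, φ w (p.2 w)) :=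
    (continuous_finsetProd _ fun i _ =>
        (hc₀ i).comp ((continuous_apply i).comp continuous_fst)).mul
      (continuous_finsetProd _ fun w _ => (hc w).comp ((continuous_apply w).comp continuous_snd))
  have hsupp := hasCompactSupport_tensorR129 hs₀ hs
  refine ⟨hcont.integrable_of_hasCompactSupport hsupp, ?_⟩
  have h1 : ∫ p, (∏ i, φ₀ i (p.1 i)) * ∏ w : ι, φ w (p.2 w) ∂μ
      = ((Measure.addHaarScalarFactor μ m : NNReal) : ℝ)
        • ∫ p, (∏ i, φ₀ i (p.1 i)) * ∏ w : ι, φ w (p.2 w) ∂m := by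
    conv_lhs => rw [hμm]
    rw [integral_smul_nnreal_measure]
    rfl
  have h2 : ∫ p, (∏ i, φ₀ i (p.1 i)) * ∏ w : ι, φ w (p.2 w) ∂m
      = (∫ x : (∀ i, A i), ∏ i, φ₀ i (x i) ∂π₀) * ∫ y : ι → ℝ, ∏ w : ι, φ w (y w) :=
    integral_prod_mul (fun x : (∀ i, A i) => ∏ i, φ₀ i (x i))
      (fun y : ι → ℝ => ∏ w : ι, φ w (y w))
  have h3 : ∫ y : ι → ℝ, ∏ w : ι, φ w (y w) = ∏ w : ι, ∫ z : ℝ, φ w z :=
    integral_fintype_prod_volume_eq_prod φ
  have h4 : ∫ x : (∀ i, A i), ∏ i, φ₀ i (x i) ∂π₀
      = ∏ i, ∫ x, φ₀ i x ∂(Measure.addHaar : Measure (A i)) :=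
    integral_fintype_prod_eq_prod φ₀
  rw [h1, h2, h3, h4, Complex.real_smul, mul_assoc]

variable (K : Type) [Field K] [NumberField K]

/-! ## The real components -/

theorem continuous_reHom129 (w : InfinitePlace K) (hw : w.IsReal) :
    Continuous (reHom K w hw) :=
  (InfinitePlace.Completion.isometry_extensionEmbeddingOfIsReal hw).continuous.comp
    ((continuous_apply w).comp continuous_fst)

theorem norm_infHom_eq129 (w : InfinitePlace K) (hw : w.IsReal) (X : Adl K) :
    ‖infHom K w X‖ = ‖reHom K w hw X‖ := by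
  rw [infHom_eq_reHom K w hw X, Complex.norm_real]

/-- The projection `X ↦ ((X_v)_{v ∈ P}, (X_w)_w)`, real components at infinity. -/
def projR129 (hR : ∀ w : InfinitePlace K, w.IsReal) (P : Finset (HeightOneSpectrum (𝓞 K)))
    (X : Adl K) :
    (∀ v : P, (v : HeightOneSpectrum (𝓞 K)).adicCompletion K) × (InfinitePlace K → ℝ) :=
  (fun v => finHom K v X, fun w => reHom K w (hR w) X)

theorem continuous_projR129 (hR : ∀ w : InfinitePlace K, w.IsReal)
    (P : Finset (HeightOneSpectrum (𝓞 K))) : Continuous (projR129 K hR P) := by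
  unfold projR129
  exact (continuous_pi fun v : P =>
      Fermat.Agent.LT.T3.H904.continuous_finHom904 K (v : HeightOneSpectrum (𝓞 K))).prodMk
    (continuous_pi fun w => continuous_reHom129 K w (hR w))

theorem projR_add129 (hR : ∀ w : InfinitePlace K, w.IsReal)
    (P : Finset (HeightOneSpectrum (𝓞 K))) (X Y : Adl K) :
    projR129 K hR P (X + Y) = projR129 K hR P X + projR129 K hR P Y :=
  Prod.ext (funext fun v => map_add (finHom K v) X Y)
    (funext fun w => map_add (reHom K w (hR w)) X Y)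

theorem projR_zero129 (hR : ∀ w : InfinitePlace K, w.IsReal)
    (P : Finset (HeightOneSpectrum (𝓞 K))) : projR129 K hR P 0 = 0 :=
  Prod.ext (funext fun v => map_zero (finHom K v)) (funext fun w => map_zero (reHom K w (hR w)))

/-! ## The section -/

/-- Every element of the target is the projection of an element of `E₀`. -/
theorem exists_sectionR129 (hR : ∀ w : InfinitePlace K, w.IsReal) (𝔫 : Ideal (𝓞 K))
    (P : Finset (HeightOneSpectrum (𝓞 K)))
    (h : (∀ v : P, (v : HeightOneSpectrum (𝓞 K)).adicCompletion K) × (InfinitePlace K → ℝ)) :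
    ∃ X : Adl K, X ∈ outGrpM K 𝔫 P ∧ projR129 K hR P X = h := by
  choose y hy using fun w : InfinitePlace K =>
    InfinitePlace.Completion.surjective_extensionEmbeddingOfIsReal (hR w) (h.2 w)
  refine ⟨((y : InfiniteAdeleRing K), finFamily719 K P h.1), ?_, ?_⟩
  · intro v hv
    have h1 : finHom K v (((y : InfiniteAdeleRing K), finFamily719 K P h.1) : Adl K)
        = finFamily719 K P h.1 v := rfl
    rw [h1, finFamily719_not_mem K P h.1 hv]
    exact Fermat.Agent.LT.T3.H322.zero_mem_idealClosure322 K 𝔫 v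
  · refine Prod.ext (funext fun v => ?_) (funext fun w => ?_)
    · have h1 : finHom K v (((y : InfiniteAdeleRing K), finFamily719 K P h.1) : Adl K)
          = finFamily719 K P h.1 v := rfl
      show finHom K v (((y : InfiniteAdeleRing K), finFamily719 K P h.1) : Adl K) = h.1 v
      rw [h1, finFamily719_mem]
    · have h1 : reHom K w (hR w) (((y : InfiniteAdeleRing K), finFamily719 K P h.1) : Adl K)
          = InfinitePlace.Completion.extensionEmbeddingOfIsReal (hR w) (y w) := rfl
      show reHom K w (hR w) (((y : InfiniteAdeleRing K), finFamily719 K P h.1) : Adl K) = h.2 w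
      rw [h1, hy w]

/-! ## The Haar property -/

/-- The image of `ν|_{E₀}` under the projection is a Haar measure of
`(∀ v : P, K_v) × (S_∞ → ℝ)`. -/
theorem splitHaarR129 (hR : ∀ w : InfinitePlace K, w.IsReal)
    [MeasurableSpace (Adl K)] [BorelSpace (Adl K)]
    [∀ v : HeightOneSpectrum (𝓞 K), MeasurableSpace (v.adicCompletion K)]
    [∀ v : HeightOneSpectrum (𝓞 K), BorelSpace (v.adicCompletion K)]
    (ν : Measure (Adl K)) [ν.IsAddHaarMeasure] (𝔫 : Ideal (𝓞 K)) (h𝔫 : 𝔫 ≠ ⊥)
    (P : Finset (HeightOneSpectrum (𝓞 K))) :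
    (Measure.map (projR129 K hR P) (ν.restrict (outGrpM K 𝔫 P))).IsAddHaarMeasure := by
  haveI : ∀ v : HeightOneSpectrum (𝓞 K), SecondCountableTopology (v.adicCompletion K) :=
    fun v => Fermat.Agent.LT.H11.SC.secondCountableTopology_adicCompletion_h11 K v
  have hE₀open : IsOpen (outGrpM K 𝔫 P) := isOpen_outGrpM719 K 𝔫 h𝔫 P
  have hE₀meas : MeasurableSet (outGrpM K 𝔫 P) := hE₀open.measurableSet
  have hpc : Continuous (projR129 K hR P) := continuous_projR129 K hR P
  have hpm : Measurable (projR129 K hR P) := hpc.measurable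
  -- invariance
  haveI hinv :
      (Measure.map (projR129 K hR P) (ν.restrict (outGrpM K 𝔫 P))).IsAddLeftInvariant := by
    refine ⟨fun h => ?_⟩
    obtain ⟨Xh, hXh, hpX⟩ := exists_sectionR129 K hR 𝔫 P h
    rw [Measure.map_map (measurable_const_add h) hpm]
    have hcomp : (fun x => h + x) ∘ projR129 K hR P
        = projR129 K hR P ∘ (fun X : Adl K => Xh + X) := by
      funext X
      show h + projR129 K hR P X = projR129 K hR P (Xh + X)
      rw [projR_add129, hpX]
    rw [hcomp, ← Measure.map_map hpm (measurable_const_add Xh)]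
    congr 1
    have hpre := preimage_add_outGrpM719 K 𝔫 P hXh
    calc Measure.map (fun X : Adl K => Xh + X) (ν.restrict (outGrpM K 𝔫 P))
        = Measure.map (fun X : Adl K => Xh + X)
            (ν.restrict ((fun X : Adl K => Xh + X) ⁻¹' outGrpM K 𝔫 P)) := by rw [hpre]
      _ = (Measure.map (fun X : Adl K => Xh + X) ν).restrict (outGrpM K 𝔫 P) :=
          (Measure.restrict_map (measurable_const_add Xh) hE₀meas).symm
      _ = ν.restrict (outGrpM K 𝔫 P) := by rw [map_add_left_eq_self]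
  -- the compact neighbourhood of `0`
  set O : Set (∀ v : P, (v : HeightOneSpectrum (𝓞 K)).adicCompletion K) :=
    Set.pi Set.univ (fun v : P =>
      (((v : HeightOneSpectrum (𝓞 K)).adicCompletionIntegers K :
        Set ((v : HeightOneSpectrum (𝓞 K)).adicCompletion K)))) with hO
  have hOc : IsCompact O :=
    isCompact_univ_pi fun v : P =>
      Fermat.Agent.LT.H11.LC.isCompact_integers_h11 K (v : HeightOneSpectrum (𝓞 K))
  have hOo : IsOpen O :=
    isOpen_set_pi Set.finite_univ fun v _ =>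
      Valued.isOpen_valuationSubring ((v : HeightOneSpectrum (𝓞 K)).adicCompletion K)
  have hK0c : IsCompact (O ×ˢ Metric.closedBall (0 : InfinitePlace K → ℝ) 1) :=
    hOc.prod (isCompact_closedBall 0 1)
  have hUo : IsOpen (O ×ˢ Metric.ball (0 : InfinitePlace K → ℝ) 1) :=
    hOo.prod Metric.isOpen_ball
  have hUsub : (O ×ˢ Metric.ball (0 : InfinitePlace K → ℝ) 1) ⊆
      (O ×ˢ Metric.closedBall (0 : InfinitePlace K → ℝ) 1) :=
    Set.prod_mono le_rfl Metric.ball_subset_closedBall
  have h0O : (0 : ∀ v : P, (v : HeightOneSpectrum (𝓞 K)).adicCompletion K) ∈ O :=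
    fun v _ => zero_mem _
  have h0U : (0 : (∀ v : P, (v : HeightOneSpectrum (𝓞 K)).adicCompletion K)
      × (InfinitePlace K → ℝ)) ∈ (O ×ˢ Metric.ball (0 : InfinitePlace K → ℝ) 1) :=
    ⟨h0O, Metric.mem_ball_self one_pos⟩
  have hK0i : (interior (O ×ˢ Metric.closedBall (0 : InfinitePlace K → ℝ) 1)).Nonempty :=
    ⟨0, interior_maximal hUsub hUo h0U⟩
  -- positivity
  have hpos : Measure.map (projR129 K hR P) (ν.restrict (outGrpM K 𝔫 P))
      (O ×ˢ Metric.closedBall (0 : InfinitePlace K → ℝ) 1) ≠ 0 := by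
    have hle := measure_mono (μ := Measure.map (projR129 K hR P) (ν.restrict (outGrpM K 𝔫 P)))
      hUsub
    have hU : Measure.map (projR129 K hR P) (ν.restrict (outGrpM K 𝔫 P))
        (O ×ˢ Metric.ball (0 : InfinitePlace K → ℝ) 1) ≠ 0 := by
      rw [Measure.map_apply hpm hUo.measurableSet,
        Measure.restrict_apply (hpm hUo.measurableSet)]
      have hopen : IsOpen (projR129 K hR P ⁻¹'
          (O ×ˢ Metric.ball (0 : InfinitePlace K → ℝ) 1) ∩ outGrpM K 𝔫 P) :=
        (hUo.preimage hpc).inter hE₀open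
      have hne : (projR129 K hR P ⁻¹'
          (O ×ˢ Metric.ball (0 : InfinitePlace K → ℝ) 1) ∩ outGrpM K 𝔫 P).Nonempty := by
        refine ⟨0, ?_, zero_mem_outGrpM719 K 𝔫 P⟩
        show projR129 K hR P 0 ∈ (O ×ˢ Metric.ball (0 : InfinitePlace K → ℝ) 1)
        rw [projR_zero129]
        exact h0U
      exact (hopen.measure_pos ν hne).ne'
    intro h0
    rw [h0] at hle
    exact hU (le_antisymm hle bot_le)
  -- finiteness
  have hfin : Measure.map (projR129 K hR P) (ν.restrict (outGrpM K 𝔫 P))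
      (O ×ˢ Metric.closedBall (0 : InfinitePlace K → ℝ) 1) ≠ ⊤ := by
    have hK0m : MeasurableSet (O ×ˢ Metric.closedBall (0 : InfinitePlace K → ℝ) 1) :=
      hK0c.isClosed.measurableSet
    rw [Measure.map_apply hpm hK0m, Measure.restrict_apply (hpm hK0m)]
    refine ((measure_mono ?_).trans_lt
      (Fermat.Agent.LT.T1.H919.isCompact_box919 (K := K) 1).measure_lt_top).ne
    rintro X ⟨hX1, hX2⟩
    have hX1' : projR129 K hR P X ∈ (O ×ˢ Metric.closedBall (0 : InfinitePlace K → ℝ) 1) := hX1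
    refine mem_box_of_outGrpM719 K 𝔫 P hX2 ?_ ?_
    · intro v hv
      have hmem := hX1'.1 ⟨v, hv⟩ (Set.mem_univ _)
      exact (HeightOneSpectrum.mem_adicCompletionIntegers (R := 𝓞 K) (K := K) (v := v)).1 hmem
    · intro w
      have hb : (fun w => reHom K w (hR w) X) ∈ Metric.closedBall (0 : InfinitePlace K → ℝ) 1 :=
        hX1'.2
      rw [mem_closedBall_zero_iff] at hb
      rw [norm_infHom_eq129 K w (hR w) X]
      exact (norm_le_pi_norm (fun w => reHom K w (hR w) X) w).trans hb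
  exact Measure.isAddHaarMeasure_of_isCompact_nonempty_interior _ _ hK0c hK0i hpos hfin

/-! ## The leaf -/

/-- **T3.18R.6 = R.6 `SplitRC`**, VERBATIM, UNCONDITIONAL. -/
theorem splitRC129 : SplitRC K := by
  letI : MeasurableSpace (Adl K) := borel (Adl K)
  haveI : BorelSpace (Adl K) := ⟨rfl⟩
  intro hR ν hν 𝔫 h𝔫 P
  letI mv : ∀ v : HeightOneSpectrum (𝓞 K), MeasurableSpace (v.adicCompletion K) :=
    fun v => borel (v.adicCompletion K)
  haveI : ∀ v : HeightOneSpectrum (𝓞 K), BorelSpace (v.adicCompletion K) := fun v => ⟨rfl⟩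
  haveI : ∀ v : HeightOneSpectrum (𝓞 K), LocallyCompactSpace (v.adicCompletion K) :=
    fun v => Fermat.Agent.LT.H11.LC.locallyCompactSpace_adicCompletion_h11 K v
  haveI : ∀ v : HeightOneSpectrum (𝓞 K), SecondCountableTopology (v.adicCompletion K) :=
    fun v => Fermat.Agent.LT.H11.SC.secondCountableTopology_adicCompletion_h11 K v
  refine ⟨fun v => (Measure.addHaar : Measure (v.adicCompletion K)), fun v => inferInstance, ?_⟩
  have hμ : (Measure.map (projR129 K hR P) (ν.restrict (outGrpM K 𝔫 P))).IsAddHaarMeasure :=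
    splitHaarR129 K hR ν 𝔫 h𝔫 P
  obtain ⟨c₀, h⟩ := prodHaarR129
    (fun v : P => (v : HeightOneSpectrum (𝓞 K)).adicCompletion K) (InfinitePlace K) _ hμ
  refine ⟨c₀, ?_⟩
  intro φ₀ φ hφ₀ hφ₀c hφ hφc
  obtain ⟨hint, hval⟩ := h (fun v : P => φ₀ (v : HeightOneSpectrum (𝓞 K))) φ
    (fun v => hφ₀ v v.2) (fun v => hφ₀c v v.2) hφ hφc
  have hE : MeasurableSet (outGrpM K 𝔫 P) := (isClosed_outGrpM719 K 𝔫 P).measurableSet
  have hp : Measurable (projR129 K hR P) := (continuous_projR129 K hR P).measurable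
  have hfc : Continuous (fun h : (∀ v : P, (v : HeightOneSpectrum (𝓞 K)).adicCompletion K)
        × (InfinitePlace K → ℝ) =>
      (∏ v : P, φ₀ (v : HeightOneSpectrum (𝓞 K)) (h.1 v))
        * ∏ w : InfinitePlace K, φ w (h.2 w)) := by
    refine (continuous_finsetProd _ fun v _ => ?_).mul (continuous_finsetProd _ fun w _ => ?_)
    · exact (hφ₀ v v.2).comp ((continuous_apply v).comp continuous_fst)
    · exact (hφ w).comp ((continuous_apply w).comp continuous_snd)
  have hfun : (fun X : Adl K => (outGrpM K 𝔫 P).indicator (fun _ => (1 : ℂ)) X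
        * (∏ v ∈ P, φ₀ v (finHom K v X)) * ∏ w : InfinitePlace K, φ w (reHom K w (hR w) X))
      = (outGrpM K 𝔫 P).indicator
          ((fun h : (∀ v : P, (v : HeightOneSpectrum (𝓞 K)).adicCompletion K)
              × (InfinitePlace K → ℝ) =>
            (∏ v : P, φ₀ (v : HeightOneSpectrum (𝓞 K)) (h.1 v))
              * ∏ w : InfinitePlace K, φ w (h.2 w)) ∘ projR129 K hR P) := by
    funext X
    have hprod : (∏ v ∈ P, φ₀ v (finHom K v X))
        = ∏ v : P, φ₀ (v : HeightOneSpectrum (𝓞 K)) (finHom K (v : HeightOneSpectrum (𝓞 K)) X) :=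
      (Finset.prod_coe_sort P (fun v => φ₀ v (finHom K v X))).symm
    by_cases hX : X ∈ outGrpM K 𝔫 P
    · rw [Set.indicator_of_mem hX, Set.indicator_of_mem hX, one_mul, hprod]
      rfl
    · rw [Set.indicator_of_notMem hX, Set.indicator_of_notMem hX, zero_mul, zero_mul]
  have hprodI : (∏ v ∈ P, ∫ x, φ₀ v x ∂(Measure.addHaar : Measure (v.adicCompletion K)))
      = ∏ v : P, ∫ x, φ₀ (v : HeightOneSpectrum (𝓞 K)) x
          ∂(Measure.addHaar : Measure ((v : HeightOneSpectrum (𝓞 K)).adicCompletion K)) :=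
    (Finset.prod_coe_sort P
      (fun v => ∫ x, φ₀ v x ∂(Measure.addHaar : Measure (v.adicCompletion K)))).symm
  rw [hfun]
  constructor
  · rw [integrable_indicator_iff hE]
    exact (integrable_map_measure hfc.aestronglyMeasurable hp.aemeasurable).mp hint
  · rw [integral_indicator hE, hprodI, ← hval]
    exact (integral_map hp.aemeasurable hfc.aestronglyMeasurable).symm

example : SplitRC K := splitRC129 K

end Fermat.Agent.LT.T3.R.H129

end
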